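import Fermat.Prelude.Def_GaloisRep_Residual
import Fermat.Prelude.Def_GroupCohomology_Selmer
import Fermat.Prelude.Def_EllipticCurve_FrobeniusTrace
import Fermat.Agent.MU.F4.Datum

section MergeWrap_S56_Selmer_Defs -- from S56/Selmer/Defs.lean

set_option autoImplicit false

namespace Fermat.Agent.S56

open Fermat.Agent.F4

variable {k : Type} [Field k]

/-- The determinant character of a residual representation. -/
noncomputable def detChar (ρbar : ResidualGaloisRep k) : GQ →* kˣ :=
  (LinearMap.det.comp ρbar.ρ).toHomUnits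

/-- The adjoint representation on `End_k(V)`: `g • f = ρ(g) ∘ f ∘ ρ(g)⁻¹`. -/
noncomputable def adRep (ρbar : ResidualGaloisRep k) :
    Representation k GQ (Module.End k ρbar.V) :=
  Representation.linHom (ρbar.ρ : Representation k GQ ρbar.V) ρbar.ρ

/-- The trace-zero endomorphisms. -/
noncomputable def ad0Sub (ρbar : ResidualGaloisRep k) : Submodule k (Module.End k ρbar.V) :=
  LinearMap.ker (LinearMap.trace k ρbar.V)

theorem ad0Sub_le_comap (ρbar : ResidualGaloisRep k) (g : GQ) :
    ad0Sub ρbar ≤ (ad0Sub ρbar).comap (adRep ρbar g) := by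
  intro f hf
  have hf' : LinearMap.trace k ρbar.V f = 0 := hf
  show LinearMap.trace k ρbar.V (adRep ρbar g f) = 0
  have h1 : adRep ρbar g f = ρbar.ρ g * (f * ρbar.ρ g⁻¹) := rfl
  rw [h1, LinearMap.trace_mul_comm, mul_assoc, ← map_mul, inv_mul_cancel, map_one, mul_one, hf']

/-- `ad⁰ ρbar` as a representation of `G_ℚ`. -/
noncomputable def ad0 (ρbar : ResidualGaloisRep k) : Rep k GQ :=
  Rep.of ((adRep ρbar).subrepresentation (ad0Sub ρbar) (ad0Sub_le_comap ρbar))

/-- `(ad⁰ ρbar)^* ⊗ det ρbar`. -/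
noncomputable def ad0Dual (ρbar : ResidualGaloisRep k) : Rep k GQ :=
  (ad0 ρbar).dualTwist (detChar ρbar)

/-- The cocycle `c` is a coboundary at some Frobenius element over `q`:
there are a place `P` over `q`, a Frobenius element `φ` at `P` and `x` with `c φ = φ x - x`. -/
def VanishesAt (N : Rep k GQ) (c : GQ → N) (q : ℕ) : Prop :=
  ∃ P : ValuationSubring (AlgebraicClosure ℚ), P.LiesOverPrime q ∧
    ∃ φ : GQ, P.IsFrobeniusAt φ q ∧ ∃ x : N, c φ = N.ρ φ x - x

end Fermat.Agent.S56
end MergeWrap_S56_Selmer_Defs
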